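/-
S18 / Program J, shared definitions for C1 (helper5): the `b`-dependent objects of the Key Lemma.

For a valuation subring `A` of `K`, a valuation subring `O` of `F ⊇ K`, a base function `x : F`
and a centre `b : K`:

* `discSubring A O x b : Subring F`      — `S_b = H74.discRing A O x b` as a subring of `F`;
* `Sb A O x b : Subring ↥O`              — `S_b` as a subring of `O`;
* `Rb A O x b : Subring ↥(H80.OL O x)`   — `R_b = S_b ∩ K(x)` as a subring of `O ∩ K(x)`;
* `Rbar A O x b : Subring κ_L`           — `red(R_b)`, `κ_L = ResidueField ↥(H80.OL O x)`;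
* `SbarSubring A O x b : Subring κ`      — `red(S_b)`, `κ = ResidueField ↥O`;
* `Sbar A O x b : Subalgebra ↥(Rbar A O x b) κ` — `red(S_b)` as an algebra over `red(R_b)`.

Definitions and membership lemmas only (sorry-free); the residue fields and the maps are those of
`Fermat.Agent.S18.H80` (helper80), the disc ring is that of `Fermat.Agent.S18.H74.CoreDefs`.
-/
import Fermat.Agent.S18.H74.CoreDefs
import Fermat.Agent.S18.H80.Resid
import Fermat.Agent.S24.H52.AddVal

set_option autoImplicit false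

open AlgebraicCurve IntermediateField IsLocalRing

noncomputable section

namespace Fermat.Agent.S18.H5

open Fermat.Agent.S18.H74 Fermat.Agent.S18.H80

variable {K : Type*} [Field K] (A : ValuationSubring K) {F : Type*} [Field F] [Algebra K F]
  (O : ValuationSubring F) (x : F) (b : K)

/-- `0 ≤ ord_P f` iff `f` lies in the valuation ring of `P` (for every `f`, also `f = 0`). -/
theorem ord_nonneg_iff_mem (P : Place K F) (f : F) :
    0 ≤ P.ord f ↔ f ∈ P.toValuationSubring := by
  by_cases hf : f = 0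
  · subst hf
    simp [P.toValuationSubring.zero_mem]
  · exact (Fermat.Agent.S24.H52.mem_iff_ord_nonneg P hf).symm

/-- `S_b` (`= H74.discRing A O x b`) as a subring of `F`. -/
def discSubring : Subring F where
  carrier := discRing A O x b
  mul_mem' := by
    rintro f g ⟨hf, hf'⟩ ⟨hg, hg'⟩
    refine ⟨O.mul_mem _ _ hf hg, fun P hP => ?_⟩
    rw [ord_nonneg_iff_mem] at *
    exact P.toValuationSubring.mul_mem _ _ ((ord_nonneg_iff_mem P f).1 (hf' P hP))
      ((ord_nonneg_iff_mem P g).1 (hg' P hP))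
  one_mem' := ⟨O.one_mem, fun P _ => by rw [ord_nonneg_iff_mem]; exact P.toValuationSubring.one_mem⟩
  add_mem' := by
    rintro f g ⟨hf, hf'⟩ ⟨hg, hg'⟩
    refine ⟨O.add_mem _ _ hf hg, fun P hP => ?_⟩
    rw [ord_nonneg_iff_mem]
    exact P.toValuationSubring.add_mem _ _ ((ord_nonneg_iff_mem P f).1 (hf' P hP))
      ((ord_nonneg_iff_mem P g).1 (hg' P hP))
  zero_mem' := ⟨O.zero_mem, fun P _ => by rw [ord_nonneg_iff_mem]; exact P.toValuationSubring.zero_mem⟩
  neg_mem' := by
    rintro f ⟨hf, hf'⟩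
    refine ⟨O.neg_mem _ hf, fun P hP => ?_⟩
    rw [ord_nonneg_iff_mem]
    exact P.toValuationSubring.neg_mem _ ((ord_nonneg_iff_mem P f).1 (hf' P hP))

theorem mem_discSubring {f : F} : f ∈ discSubring A O x b ↔ f ∈ discRing A O x b := Iff.rfl

theorem coe_discSubring : (discSubring A O x b : Set F) = discRing A O x b := rfl

theorem mem_discSubring_iff {f : F} :
    f ∈ discSubring A O x b ↔ f ∈ O ∧ ∀ P : Place K F, InDisc A x b P → 0 ≤ P.ord f := Iff.rfl

theorem discSubring_le : ∀ f ∈ discSubring A O x b, f ∈ O := fun _ hf => hf.1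

/-- `S_b` as a subring of `O`. -/
def Sb : Subring ↥O := (discSubring A O x b).comap O.subtype

theorem mem_Sb {f : ↥O} : f ∈ Sb A O x b ↔ (f : F) ∈ discRing A O x b := Iff.rfl

/-- `R_b = S_b ∩ K(x)` as a subring of `O ∩ K(x)`. -/
def Rb : Subring ↥(OL (K := K) O x) := (Sb A O x b).comap (inclOL O x)

theorem mem_Rb {r : ↥(OL (K := K) O x)} :
    r ∈ Rb A O x b ↔ ((r : K⟮x⟯) : F) ∈ discRing A O x b := Iff.rfl

/-- `red(R_b)`, a subring of the residue field `κ_L` of `O ∩ K(x)`. -/
def Rbar : Subring (ResidueField ↥(OL (K := K) O x)) :=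
  (Rb A O x b).map (residue ↥(OL (K := K) O x))

theorem mem_Rbar {z : ResidueField ↥(OL (K := K) O x)} :
    z ∈ Rbar A O x b ↔ ∃ r : ↥(OL (K := K) O x),
      ((r : K⟮x⟯) : F) ∈ discRing A O x b ∧ residue ↥(OL (K := K) O x) r = z := by
  rw [Rbar, Subring.mem_map]
  exact ⟨fun ⟨r, hr, h⟩ => ⟨r, hr, h⟩, fun ⟨r, hr, h⟩ => ⟨r, hr, h⟩⟩

theorem residue_mem_Rbar {r : ↥(OL (K := K) O x)} (hr : ((r : K⟮x⟯) : F) ∈ discRing A O x b) :
    residue ↥(OL (K := K) O x) r ∈ Rbar A O x b :=
  (mem_Rbar A O x b).2 ⟨r, hr, rfl⟩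

/-! Shortcut instances for `↥(Rbar A O x b)` (instance search through the generic subobject
instances is slow on these terms; the values are exactly what `inferInstance` finds). -/

instance instCommRingRbar : CommRing ↥(Rbar A O x b) := (Rbar A O x b).toCommRing

instance instIsDomainRbar : IsDomain ↥(Rbar A O x b) := Subring.instIsDomainSubtypeMem _

instance instAlgebraRbarResL :
    Algebra ↥(Rbar A O x b) (ResidueField ↥(OL (K := K) O x)) := inferInstance

instance instAlgebraRbarRes : Algebra ↥(Rbar A O x b) (ResidueField ↥O) := inferInstance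

set_option synthInstance.maxHeartbeats 400000 in
instance instIsScalarTowerRbar :
    IsScalarTower ↥(Rbar A O x b) (ResidueField ↥(OL (K := K) O x)) (ResidueField ↥O) :=
  inferInstance

theorem algebraMap_Rbar_resL (z : ↥(Rbar A O x b)) :
    algebraMap ↥(Rbar A O x b) (ResidueField ↥(OL (K := K) O x)) z = (z : ResidueField _) := rfl

theorem algebraMap_Rbar_res (z : ↥(Rbar A O x b)) :
    algebraMap ↥(Rbar A O x b) (ResidueField ↥O) z =
      algebraMap (ResidueField ↥(OL (K := K) O x)) (ResidueField ↥O) (z : ResidueField _) := rfl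

/-- `red(S_b)`, a subring of the residue field `κ` of `O`. -/
def SbarSubring : Subring (ResidueField ↥O) := (Sb A O x b).map (residue ↥O)

theorem mem_SbarSubring {z : ResidueField ↥O} :
    z ∈ SbarSubring A O x b ↔ ∃ f : ↥O, (f : F) ∈ discRing A O x b ∧ residue ↥O f = z := by
  rw [SbarSubring, Subring.mem_map]
  exact ⟨fun ⟨f, hf, h⟩ => ⟨f, hf, h⟩, fun ⟨f, hf, h⟩ => ⟨f, hf, h⟩⟩

/-- The residue map of `O ∩ K(x)` followed by `κ_L → κ` is the residue map of `O` on the
inclusion. -/
theorem algebraMap_residue_OL (r : ↥(OL (K := K) O x)) :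
    algebraMap (ResidueField ↥(OL (K := K) O x)) (ResidueField ↥O)
        (residue ↥(OL (K := K) O x) r) = residue ↥O (inclOL O x r) :=
  ResidueField.algebraMap_residue r

/-- `red(S_b)` as a subalgebra of `κ` over `red(R_b)`. -/
def Sbar : Subalgebra ↥(Rbar A O x b) (ResidueField ↥O) :=
  { SbarSubring A O x b with
    algebraMap_mem' := by
      rintro ⟨z, hz⟩
      obtain ⟨r, hr, rfl⟩ := (mem_Rbar A O x b).1 hz
      change algebraMap (ResidueField ↥(OL (K := K) O x)) (ResidueField ↥O)
        (residue ↥(OL (K := K) O x) r) ∈ SbarSubring A O x b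
      rw [algebraMap_residue_OL]
      exact (mem_SbarSubring A O x b).2 ⟨inclOL O x r, hr, rfl⟩ }

theorem mem_Sbar {z : ResidueField ↥O} :
    z ∈ Sbar A O x b ↔ ∃ f : ↥O, (f : F) ∈ discRing A O x b ∧ residue ↥O f = z :=
  mem_SbarSubring A O x b

theorem residue_mem_Sbar {f : ↥O} (hf : (f : F) ∈ discRing A O x b) :
    residue ↥O f ∈ Sbar A O x b :=
  (mem_Sbar A O x b).2 ⟨f, hf, rfl⟩

/-- The algebra map `red(R_b) → κ` on a reduction. -/
theorem algebraMap_Rbar_residue (r : ↥(OL (K := K) O x))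
    (hr : ((r : K⟮x⟯) : F) ∈ discRing A O x b) :
    algebraMap ↥(Rbar A O x b) (ResidueField ↥O)
        ⟨residue ↥(OL (K := K) O x) r, residue_mem_Rbar A O x b hr⟩ = residue ↥O (inclOL O x r) :=
  algebraMap_residue_OL O x r

end Fermat.Agent.S18.H5
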