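/-
S18 / Program J, leaf C1-D7c (helper5): the KEY LEMMA on the residue side.

For the residue disc of `b ∈ A`, a minimal tuple `θ` (D3), the discriminant count (D4) and the
saturated nilpotents (D5) — packaged in `H49.KeyHyp A O x b` — the ring `Sbar = red(S_b)` contains
every element of the residue field `κ` of `O` which is integral over `Rbar = red(R_b)`:

* `discResidue`, `isDVR_Rbar`, `isFractionRing_Rbar` : helper4's DVR package for the concrete
  `Rbar A O x b` of `H5.Defs`;
* `basisRes_mem_Sbar`, `exists_coord_Sbar`, `coord_ext` : `Sbar = ⊕ Rbar · red θ_i`;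
* `key_closed_of`, `key_closed` : (KEY) `∀ z : κ, IsIntegral Rbar z → z ∈ Sbar`
  (instantiation of the landed `H8.discLocal`);
* `key_ic` : the `F`-level form (hypothesis (IC) of the clearing lemma), VERBATIM node `key_ic` of
  the C1 sub-skeleton.
-/
import Fermat.Agent.S18.H5.Defs
import Fermat.Agent.S18.H80.OfSetup
import Fermat.Agent.S18.H80.ResK
import Fermat.Agent.S18.H8.DiscLocal
import Fermat.Agent.S18.H4.DiscDVR
import Fermat.Agent.S18.H49.C1Defs
import Fermat.Agent.S18.H45.DvrClosed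
import Fermat.Agent.S18.H42.Fibres
import Fermat.Agent.S18.H22.Subspaces

set_option autoImplicit false
set_option linter.style.haveILetI false

open AlgebraicCurve IntermediateField IsLocalRing

noncomputable section

namespace Fermat.Agent.S18.H5

open Fermat.Agent.S18.H74 Fermat.Agent.S18.H80

/-! ### Linear algebra over a local ring: right inverse modulo the maximal ideal -/

/-- A matrix over a local ring whose rows are linearly independent modulo the maximal ideal has a
right inverse modulo the maximal ideal. -/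
theorem exists_right_inv_mod {R : Type*} [CommRing R] [IsLocalRing R] {r μ : ℕ}
    (v : Fin r → Fin μ → R)
    (hvind : ∀ c : Fin r → R, (∀ i, ∑ k, c k * v k i ∈ maximalIdeal R) →
      ∀ k, c k ∈ maximalIdeal R) :
    ∃ u : Fin μ → Fin r → R, ∀ k l,
      (∑ i, v k i * u i l) - (if k = l then 1 else 0) ∈ maximalIdeal R := by
  classical
  let M : Matrix (Fin r) (Fin μ) (ResidueField R) := fun k i => residue R (v k i)
  have hinj : LinearMap.ker (Matrix.vecMulLinear M) = ⊥ := by
    rw [LinearMap.ker_eq_bot']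
    intro g hg
    choose c hc using fun k => residue_surjective (g k)
    have h1 : ∀ i, ∑ k, c k * v k i ∈ maximalIdeal R := by
      intro i
      have h2 := congrFun hg i
      rw [← residue_eq_zero_iff, map_sum]
      simp only [Matrix.vecMulLinear_apply, Matrix.vecMul, dotProduct, Pi.zero_apply] at h2
      rw [← h2]
      refine Finset.sum_congr rfl fun k _ => ?_
      rw [map_mul, hc]
    funext k
    rw [← hc k, Pi.zero_apply, residue_eq_zero_iff]
    exact hvind c h1 k
  obtain ⟨G, hG⟩ := LinearMap.exists_leftInverse_of_injective _ hinj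
  choose u hu using fun (i : Fin μ) (l : Fin r) =>
    residue_surjective (G (Pi.single i (1 : ResidueField R)) l)
  refine ⟨u, fun k l => ?_⟩
  rw [← residue_eq_zero_iff, map_sub, map_sum, sub_eq_zero]
  have h3 : Matrix.vecMul (Pi.single k (1 : ResidueField R) : Fin r → ResidueField R) M = M k :=
    Matrix.single_one_vecMul k M
  have h4 : G (M k) = Pi.single k (1 : ResidueField R) := by
    have := LinearMap.congr_fun hG (Pi.single k (1 : ResidueField R))
    simpa [Matrix.vecMulLinear_apply, h3] using this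
  have h5 : M k = ∑ i, M k i • (Pi.single i (1 : ResidueField R) : Fin μ → ResidueField R) := by
    funext j
    simp [Finset.sum_apply, Pi.single_apply]
  have h6 : G (M k) l = ∑ i, M k i * G (Pi.single i (1 : ResidueField R)) l := by
    conv_lhs => rw [h5]
    simp [map_sum, Finset.sum_apply]
  rw [h4] at h6
  have h7 : residue R (if k = l then 1 else 0)
      = (Pi.single k (1 : ResidueField R) : Fin r → ResidueField R) l := by
    by_cases hkl : k = l
    · subst hkl; simp
    · simp [hkl, Ne.symm hkl]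
  rw [h7, h6]
  refine Finset.sum_congr rfl fun i _ => ?_
  rw [map_mul, hu]

variable {K : Type*} [Field K] {A : ValuationSubring K} {F : Type*} [Field F] [Algebra K F]
  {O : ValuationSubring F} {x : F} {b : K} {μ : ℕ} {θ : Fin μ → F}

/-! ### Constants -/

/-- Constants of `A` lie in `S_b`. -/
theorem const_mem_discRing (hmem : ∀ a : K, algebraMap K F a ∈ O ↔ a ∈ A) (b : K) {a : K}
    (ha : a ∈ A) : algebraMap K F a ∈ discRing A O x b :=
  ⟨(hmem a).2 ha, fun P _ => (ord_nonneg_iff_mem P _).2 (P.algebraMap_mem' a)⟩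

/-- The reduction of the constants, as a ring homomorphism `A → red(R_b)`. -/
def constRbar (hmem : ∀ a : K, algebraMap K F a ∈ O ↔ a ∈ A) (b : K) :
    ↥A →+* ↥(Rbar A O x b) :=
  ((residue ↥(OL (K := K) O x)).comp (inclAL (x := x) hmem)).codRestrict (Rbar A O x b)
    fun a => residue_mem_Rbar A O x b (const_mem_discRing hmem b a.2)

theorem coe_constRbar (hmem : ∀ a : K, algebraMap K F a ∈ O ↔ a ∈ A) (b : K) (a : ↥A) :
    ((constRbar (x := x) hmem b a : ↥(Rbar A O x b)) : ResidueField ↥(OL (K := K) O x))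
      = residue ↥(OL (K := K) O x) (inclAL (x := x) hmem a) := rfl

theorem constRbar_eq_zero (hmem : ∀ a : K, algebraMap K F a ∈ O ↔ a ∈ A) (b : K) {a : ↥A}
    (ha : a ∈ maximalIdeal ↥A) : constRbar (x := x) hmem b a = 0 := by
  apply Subtype.ext
  rw [coe_constRbar]
  change _ = (0 : ResidueField ↥(OL (K := K) O x))
  rw [residue_eq_zero_iff, mem_maximalIdeal_OL_iff, inclAL_coe,
    ValuationSubring.mem_nonunits_iff_or, ← map_inv₀, hmem, map_eq_zero]
  have h1 : (a : K) ∈ A.nonunits :=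
    (ValuationSubring.mem_nonunits_iff_exists_mem_maximalIdeal).2 ⟨a.2, ha⟩
  exact (ValuationSubring.mem_nonunits_iff_or A).1 h1

/-! ### helper4's DVR package for the concrete `Rbar` -/

/-- helper4's residue data for the concrete residue plumbing of `H80` / `H5.Defs`. -/
theorem discResidue (hmem : ∀ a : K, algebraMap K F a ∈ O ↔ a ∈ A)
    (hgauss : ∀ p : Polynomial K, (∀ i, p.coeff i ∈ A) →
      (∃ i, p.coeff i ≠ 0 ∧ (p.coeff i)⁻¹ ∈ A) →
      Polynomial.aeval x p ∈ O ∧ (Polynomial.aeval x p)⁻¹ ∈ O) (hb : b ∈ A)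
    (hfib : ∀ c : K, c - b ∈ A.nonunits → ∃ P : Place K F, 0 < P.ord (x - algebraMap K F c)) :
    H4.DiscResidue A O x b (OL (K := K) O x) (residue ↥(OL (K := K) O x)) (Rbar A O x b) where
  mem_iff := hmem
  gauss := hgauss
  mem_A := hb
  fib := hfib
  mem_OL := fun _ => Iff.rfl
  red_eq_zero := fun r => by rw [residue_eq_zero_iff, mem_maximalIdeal_OL_iff]
  mem_R := fun _ => mem_Rbar A O x b

section Setup

variable [IsAlgClosed K] [CharZero K]

/-- helper4's residue data from a `Setup`. -/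
theorem discResidue_of_setup (hA : A ≠ ⊤) (hS : Setup K A F O x) (hb : b ∈ A) :
    H4.DiscResidue A O x b (OL (K := K) O x) (residue ↥(OL (K := K) O x)) (Rbar A O x b) := by
  haveI := hS.finite
  have hx : Transcendental K x :=
    Fermat.Agent.S18.H22.transcendental_of_gauss hA hS.mem_iff hS.gauss
  exact discResidue hS.mem_iff hS.gauss hb fun c _ => Fermat.Agent.S18.H42.exists_over x hx c

/-- `red(R_b)` is a discrete valuation ring. -/
theorem isDVR_Rbar (hA : A ≠ ⊤) (hS : Setup K A F O x) (hb : b ∈ A) :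
    IsDiscreteValuationRing ↥(Rbar A O x b) :=
  (discResidue_of_setup hA hS hb).isDiscreteValuationRing

/-- The residue field of `O ∩ K(x)` is the fraction field of `red(R_b)`. -/
theorem isFractionRing_Rbar (hA : A ≠ ⊤) (hS : Setup K A F O x) (hb : b ∈ A) :
    IsFractionRing ↥(Rbar A O x b) (ResidueField ↥(OL (K := K) O x)) :=
  (discResidue_of_setup hA hS hb).isFractionRing residue_surjective

end Setup

/-! ### `Sbar = ⊕ Rbar · red θ_i` -/

theorem basisRes_mem_Sbar (D : ResData A O x θ) (hθS : ∀ i, θ i ∈ discRing A O x b)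
    (i : Fin μ) : D.basisRes i ∈ Sbar A O x b := by
  rw [D.basisRes_apply]
  exact residue_mem_Sbar A O x b (f := ⟨θ i, D.theta_mem i⟩) (hθS i)

/-- A combination with coefficients in `red(R_b)`, rewritten with coefficients in `κ_L`. -/
theorem sum_smul_basisRes (D : ResData A O x θ) (c : Fin μ → ↥(Rbar A O x b)) :
    ∑ i, c i • D.basisRes i
      = ∑ i, ((c i : ↥(Rbar A O x b)) : ResidueField ↥(OL (K := K) O x)) • D.basisRes i :=
  Finset.sum_congr rfl fun i _ => by
    rw [Algebra.smul_def, Algebra.smul_def, algebraMap_Rbar_res]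

/-- Every element of `red(S_b)` is a combination of the `red θ_i` with coefficients in
`red(R_b)`. -/
theorem exists_coord_Sbar (D : ResData A O x θ)
    (hcoord : ∀ r : Fin μ → K⟮x⟯, (∑ i, (r i : F) * θ i) ∈ discRing A O x b →
      ∀ i, (r i : F) ∈ discRing A O x b)
    (z : ResidueField ↥O) (hz : z ∈ Sbar A O x b) :
    ∃ c : Fin μ → ↥(Rbar A O x b), z = ∑ i, c i • D.basisRes i := by
  obtain ⟨f, hf, rfl⟩ := (mem_Sbar A O x b).1 hz
  have hsum := D.sum_repr (f : F)
  have hc := hcoord (fun i => D.basisF.repr (f : F) i) (by rw [hsum]; exact hf)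
  let r : Fin μ → ↥(OL (K := K) O x) := fun i => ⟨D.basisF.repr (f : F) i, D.repr_mem f.2 i⟩
  refine ⟨fun i => ⟨residue _ (r i), residue_mem_Rbar A O x b (hc i)⟩, ?_⟩
  have h2 := D.sum_residue_smul_thetaBar r
  have h1 : f = ⟨∑ i, ((r i : K⟮x⟯) : F) * θ i, D.sum_mem r⟩ := Subtype.ext hsum.symm
  rw [sum_smul_basisRes]
  conv_lhs => rw [h1, ← h2]
  refine Finset.sum_congr rfl fun i _ => ?_
  rw [D.basisRes_apply]

/-- Uniqueness of the coordinates. -/
theorem coord_ext (D : ResData A O x θ) (c c' : Fin μ → ↥(Rbar A O x b))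
    (h : ∑ i, c i • D.basisRes i = ∑ i, c' i • D.basisRes i) : c = c' := by
  rw [sum_smul_basisRes, sum_smul_basisRes] at h
  have h1 := congrArg D.basisRes.repr h
  funext i
  apply Subtype.ext
  have h2 := DFunLike.congr_fun h1 i
  rw [D.basisRes.repr_sum_self, D.basisRes.repr_sum_self] at h2
  exact h2

/-! ### The Key Lemma -/

section KeyLemma

variable [IsAlgClosed K] [CharZero K]

/-- **(KEY)**, explicit form: `red(S_b)` contains every element of the residue field of `O` which
is integral over `red(R_b)`. -/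
theorem key_closed_of (hA : A ≠ ⊤) (hS : Setup K A F O x) (hb : b ∈ A)
    (D : ResData A O x θ) (hθS : ∀ i, θ i ∈ discRing A O x b)
    (hcoord : ∀ r : Fin μ → K⟮x⟯, (∑ i, (r i : F) * θ i) ∈ discRing A O x b →
      ∀ i, (r i : F) ∈ discRing A O x b)
    (b0 : K) (hb0 : b0 - b ∈ A.nonunits) (n : ℕ) (ε : K⟮x⟯)
    (hgram : ((gramDet K F x θ : K⟮x⟯) : F) = (x - algebraMap K F b0) ^ n * (ε : F))
    (hε1 : (ε : F) ∈ discRing A O x b) (hε2 : (ε : F)⁻¹ ∈ discRing A O x b)
    (r : ℕ) (hnr : n ≤ r) (v : Fin r → Fin μ → K) (hvA : ∀ k i, v k i ∈ A)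
    (hvind : ∀ c : Fin r → K, (∀ i, (∑ k, c k • v k) i ∈ A.nonunits) → ∀ k, c k ∈ A.nonunits)
    (hnil : ∀ k, ∃ M : ℕ, ∃ w ∈ discRing A O x b,
      (∑ i, v k i • θ i) ^ M = (x - algebraMap K F b0) * w) :
    ∀ z : ResidueField ↥O, IsIntegral ↥(Rbar A O x b) z → z ∈ Sbar A O x b := by
  classical
  have hDR := discResidue_of_setup hA hS hb (b := b)
  haveI : IsDiscreteValuationRing ↥(Rbar A O x b) := hDR.isDiscreteValuationRing
  haveI : IsFractionRing ↥(Rbar A O x b) (ResidueField ↥(OL (K := K) O x)) :=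
    hDR.isFractionRing residue_surjective
  haveI : Module.Finite (ResidueField ↥(OL (K := K) O x)) (ResidueField ↥O) := D.finite_res
  obtain ⟨xb, ϖ, hxb, hϖ⟩ := hDR.exists_unif
  have hϖirr : Irreducible ϖ := hDR.irreducible hxb hϖ
  have hmem := hS.mem_iff
  -- the second centre
  have hb0A : b0 ∈ A := by
    have h1 : b0 = b + (b0 - b) := by ring
    rw [h1]
    exact A.add_mem _ _ hb (A.nonunits_subset hb0)
  have hxb0 : x - algebraMap K F b0 ∈ discRing A O x b := by
    have := hDR.aeval_mem_discRing (H4.isGaussPrim_X_sub_C hb0A).1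
    simpa using this
  have hxb0L : x - algebraMap K F b0 ∈ K⟮x⟯ :=
    sub_mem (mem_adjoin_simple_self K x) (IntermediateField.algebraMap_mem _ b0)
  let xb0 : ↥(OL (K := K) O x) := ⟨⟨x - algebraMap K F b0, hxb0L⟩, hxb0.1⟩
  have hred0 : residue ↥(OL (K := K) O x) xb0 = (ϖ : ResidueField ↥(OL (K := K) O x)) := by
    rw [hϖ]
    apply hDR.red_eq_of_sub_mem
    have h1 : (((xb0 : ↥(OL (K := K) O x)) : K⟮x⟯) : F) - ((xb : K⟮x⟯) : F)
        = algebraMap K F (-(b0 - b)) := by
      rw [hxb, map_neg, map_sub]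
      change x - algebraMap K F b0 - (x - algebraMap K F b) = _
      ring
    rw [h1, H4.algebraMap_mem_nonunits_iff hmem]
    exact A.nonunits.neg_mem hb0
  -- `red (x - b0)` in `κ`
  have hred0' : residue ↥O ⟨x - algebraMap K F b0, hxb0.1⟩
      = algebraMap ↥(Rbar A O x b) (ResidueField ↥O) ϖ := by
    rw [algebraMap_Rbar_res, ← hred0, algebraMap_residue_OL]
    rfl
  -- the basis
  have hbB : ∀ i, D.basisRes i ∈ Sbar A O x b := basisRes_mem_Sbar D hθS
  have hBb : ∀ z ∈ Sbar A O x b, ∃ c : Fin μ → ↥(Rbar A O x b), z = ∑ i, c i • D.basisRes i :=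
    exists_coord_Sbar D hcoord
  -- the nilpotents
  have hY : ∀ k, (∑ i, v k i • θ i) ∈ discRing A O x b := fun k =>
    (discSubring A O x b).sum_mem fun i _ => by
      rw [Algebra.smul_def]
      exact (discSubring A O x b).mul_mem (const_mem_discRing hmem b (hvA k i)) (hθS i)
  let y : Fin r → ResidueField ↥O := fun k => residue ↥O ⟨∑ i, v k i • θ i, (hY k).1⟩
  let φ : ↥A →+* ↥(Rbar A O x b) := constRbar (x := x) hmem b
  let vb : Fin r → Fin μ → ↥(Rbar A O x b) := fun k i => φ ⟨v k i, hvA k i⟩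
  have hy : ∀ k, y k = ∑ i, vb k i • D.basisRes i := by
    intro k
    have h2 := D.sum_residue_smul_thetaBar
      (fun i => inclAL (x := x) hmem ⟨v k i, hvA k i⟩)
    rw [sum_smul_basisRes]
    have h3 : (⟨∑ i, v k i • θ i, (hY k).1⟩ : ↥O)
        = ⟨∑ i, (((inclAL (x := x) hmem ⟨v k i, hvA k i⟩ : ↥(OL (K := K) O x)) : K⟮x⟯) : F)
            * θ i, D.sum_mem _⟩ := by
      apply Subtype.ext
      change ∑ i, v k i • θ i
        = ∑ i, (((inclAL (x := x) hmem ⟨v k i, hvA k i⟩ : ↥(OL (K := K) O x)) : K⟮x⟯) : F) * θ i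
      refine Finset.sum_congr rfl fun i _ => ?_
      rw [Algebra.smul_def]
      rfl
    change residue ↥O ⟨∑ i, v k i • θ i, (hY k).1⟩ = _
    rw [h3, ← h2]
    refine Finset.sum_congr rfl fun i _ => ?_
    rw [D.basisRes_apply]
    rfl
  -- the discriminant
  have hgO : ((D.gramO : ↥(OL (K := K) O x)) : K⟮x⟯) = gramDet K F x θ := D.coe_gramO
  have hgR : (((D.gramO : ↥(OL (K := K) O x)) : K⟮x⟯) : F) ∈ discRing A O x b := by
    rw [hgO, hgram]
    exact (discSubring A O x b).mul_mem ((discSubring A O x b).pow_mem hxb0 n) hε1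
  let d : ↥(Rbar A O x b) := ⟨residue _ D.gramO, residue_mem_Rbar A O x b hgR⟩
  have hεinv : ((ε⁻¹ : K⟮x⟯) : F) = (ε : F)⁻¹ := rfl
  let εL : ↥(OL (K := K) O x) := ⟨ε, hε1.1⟩
  let εL' : ↥(OL (K := K) O x) := ⟨ε⁻¹, hε2.1⟩
  let εb : ↥(Rbar A O x b) := ⟨residue _ εL, residue_mem_Rbar A O x b hε1⟩
  let εb' : ↥(Rbar A O x b) := ⟨residue _ εL', residue_mem_Rbar A O x b hε2⟩
  have hε0 : (ε : F) ≠ 0 := by
    intro h0
    have h1 : ((gramDet K F x θ : K⟮x⟯) : F) = 0 := by rw [hgram, h0, mul_zero]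
    have h2 := D.gram
    have h3 : (((Matrix.of fun i j : Fin μ => Algebra.trace K⟮x⟯ F (θ i * θ j)).det : K⟮x⟯) : F)
        = 0 := h1
    have h4 : ((D.gramO : ↥(OL (K := K) O x)) : K⟮x⟯) = 0 := by
      rw [hgO]
      exact Subtype.ext h1
    exact D.gramO_ne_zero (Subtype.ext h4)
  have hεu : εb * εb' = 1 := by
    apply Subtype.ext
    change residue _ εL * residue _ εL' = 1
    rw [← map_mul]
    have h1 : εL * εL' = 1 := by
      apply Subtype.ext
      apply Subtype.ext
      change (ε : F) * (ε : F)⁻¹ = 1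
      exact mul_inv_cancel₀ hε0
    rw [h1, map_one]
  have hdeq : d = ϖ ^ n * εb := by
    apply Subtype.ext
    change residue _ D.gramO = (ϖ : ResidueField ↥(OL (K := K) O x)) ^ n * residue _ εL
    rw [← hred0, ← map_pow, ← map_mul]
    congr 1
    apply Subtype.ext
    apply Subtype.ext
    rw [hgO, hgram]
    rfl
  refine Fermat.Agent.S18.H8.discLocal (Sbar A O x b) D.basisRes hbB hBb ϖ hϖirr r y
    ?_ ?_ ?_ d ?_ ?_
  · -- `y k ∈ Sbar`
    intro k
    exact residue_mem_Sbar A O x b (f := ⟨∑ i, v k i • θ i, (hY k).1⟩) (hY k)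
  · -- nilpotent modulo `ϖ`
    intro k
    obtain ⟨M, w, hw, hYw⟩ := hnil k
    refine ⟨M, residue ↥O ⟨w, hw.1⟩, residue_mem_Sbar A O x b (f := ⟨w, hw.1⟩) hw, ?_⟩
    rw [Algebra.smul_def, ← hred0', ← map_mul, ← map_pow]
    congr 1
    exact Subtype.ext hYw
  · -- independent modulo `ϖ`
    rintro c ⟨w, hw, hcw⟩
    obtain ⟨c', rfl⟩ := hBb w hw
    have h1 : ∑ k, c k • y k = ∑ i, (∑ k, c k * vb k i) • D.basisRes i := by
      simp_rw [hy, Finset.smul_sum, smul_smul, Finset.sum_smul]
      exact Finset.sum_comm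
    have h2 : ϖ • ∑ i, c' i • D.basisRes i = ∑ i, (ϖ * c' i) • D.basisRes i := by
      simp_rw [Finset.smul_sum, smul_smul]
    rw [h1, h2] at hcw
    have h3 := congrFun (coord_ext D _ _ hcw)
    -- right inverse of `v` modulo the maximal ideal
    obtain ⟨u, hu⟩ := exists_right_inv_mod (R := ↥A) (fun k i => (⟨v k i, hvA k i⟩ : ↥A))
      (by
        intro c hc k
        have h4 : ∀ a : ↥A, a ∈ maximalIdeal ↥A ↔ (a : K) ∈ A.nonunits := fun a => by
          rw [ValuationSubring.mem_nonunits_iff_exists_mem_maximalIdeal]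
          exact ⟨fun h => ⟨a.2, h⟩, fun ⟨_, h⟩ => h⟩
        rw [h4]
        refine hvind (fun k => (c k : K)) (fun i => ?_) k
        have h5 := (h4 _).1 (hc i)
        have h6 : (∑ k, (c k : K) • v k) i = ((∑ k, c k * ⟨v k i, hvA k i⟩ : ↥A) : K) := by
          rw [Finset.sum_apply]
          push_cast
          rfl
        rw [h6]
        exact h5)
    intro l
    have h7 : ∀ k, ∑ i, vb k i * φ (u i l) = if k = l then 1 else 0 := by
      intro k
      have h8 := constRbar_eq_zero (x := x) hmem b (hu k l)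
      rw [map_sub, map_sum, sub_eq_zero] at h8
      simp only [map_mul] at h8
      rw [h8]
      split_ifs <;> simp
    have h9 : c l = ϖ * ∑ i, c' i * φ (u i l) := by
      calc c l = ∑ k, c k * (if k = l then 1 else 0) := by simp
        _ = ∑ k, c k * ∑ i, vb k i * φ (u i l) := by simp_rw [h7]
        _ = ∑ i, (∑ k, c k * vb k i) * φ (u i l) := by
          simp_rw [Finset.mul_sum, Finset.sum_mul, mul_assoc]
          exact Finset.sum_comm
        _ = ϖ * ∑ i, c' i * φ (u i l) := by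
          simp_rw [h3, Finset.mul_sum, mul_assoc]
    exact ⟨_, h9⟩
  · -- the discriminant
    exact D.residue_gramO
  · -- the count
    intro hdvd
    rw [hdeq] at hdvd
    have hu : IsUnit εb := IsUnit.of_mul_eq_one _ hεu
    have h1 : ϖ ^ (r + 1) ∣ ϖ ^ n := (hu.dvd_mul_right).1 hdvd
    have h2 := (pow_dvd_pow_iff hϖirr.ne_zero hϖirr.not_isUnit).1 h1
    omega

omit [IsAlgClosed K] [CharZero K] in
/-- The Gram determinant of the tuple of a `KeyHyp`-factorisation is a Gauss unit. -/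
theorem gramDet_inv_mem (hS : Setup K A F O x) (hb : b ∈ A) (b0 : K)
    (hb0 : b0 - b ∈ A.nonunits) (n : ℕ) (ε : K⟮x⟯)
    (hgram : ((gramDet K F x θ : K⟮x⟯) : F) = (x - algebraMap K F b0) ^ n * (ε : F))
    (hε2 : (ε : F)⁻¹ ∈ discRing A O x b) : ((gramDet K F x θ : K⟮x⟯) : F)⁻¹ ∈ O := by
  have hb0A : b0 ∈ A := by
    have h1 : b0 = b + (b0 - b) := by ring
    rw [h1]
    exact A.add_mem _ _ hb (A.nonunits_subset hb0)
  have h2 : (x - algebraMap K F b0)⁻¹ ∈ O := by
    have := (hS.gauss _ (H4.isGaussPrim_X_sub_C hb0A).1 (H4.isGaussPrim_X_sub_C hb0A).2).2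
    simpa using this
  rw [hgram, mul_inv, ← inv_pow]
  exact O.mul_mem _ _ (pow_mem h2 n) hε2.1

/-- **(KEY)**: `red(S_b)` is integrally closed in the residue field of `O` over `red(R_b)`. -/
theorem key_closed (hA : A ≠ ⊤) (hS : Setup K A F O x) (hb : b ∈ A)
    (hkey : Fermat.Agent.S18.H49.KeyHyp A O x b) :
    ∀ z : ResidueField ↥O, IsIntegral ↥(Rbar A O x b) z → z ∈ Sbar A O x b := by
  obtain ⟨θ, b0, n, ε, r, v, hθ, hb0, hgram, hε1, hε2, hnr, hvA, hvind, hnil⟩ := hkey
  have D : ResData A O x θ :=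
    resData_of_setup hA hS θ hθ.on (gramDet_inv_mem hS hb b0 hb0 n ε hgram hε2)
  exact key_closed_of hA hS hb D hθ.mem hθ.coord b0 hb0 n ε hgram hε1 hε2 r hnr v hvA hvind
    fun k => ⟨_, hnil k⟩

/-- **Key Lemma, output (IC)**: VERBATIM node `key_ic` of the C1 sub-skeleton. -/
theorem key_ic (hA : A ≠ ⊤) (hS : Setup K A F O x)
    (b : K) (hb : b ∈ A) (hkey : Fermat.Agent.S18.H49.KeyHyp A O x b) (m : ℕ) (hm : m ≠ 0)
    (y : F) (hy : y ∈ O) (w : F) (hw : w ∈ discRing A O x b) (hyw : y ^ m - w ∈ O.nonunits) :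
    ∃ s ∈ discRing A O x b, y - s ∈ O.nonunits := by
  have hcl := key_closed hA hS hb hkey
  obtain ⟨θ, b0, n, ε, r, v, hθ, hb0, hgram, hε1, hε2, hnr, hvA, hvind, hnil⟩ := hkey
  have D : ResData A O x θ :=
    resData_of_setup hA hS θ hθ.on (gramDet_inv_mem hS hb b0 hb0 n ε hgram hε2)
  have hDR := discResidue_of_setup hA hS hb (b := b)
  haveI : IsDiscreteValuationRing ↥(Rbar A O x b) := hDR.isDiscreteValuationRing
  haveI : IsFractionRing ↥(Rbar A O x b) (ResidueField ↥(OL (K := K) O x)) :=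
    hDR.isFractionRing residue_surjective
  haveI : Module.Finite (ResidueField ↥(OL (K := K) O x)) (ResidueField ↥O) := D.finite_res
  have hpow : residue ↥O ⟨y, hy⟩ ^ m ∈ Sbar A O x b := by
    have h1 : residue ↥O ⟨y, hy⟩ ^ m = residue ↥O ⟨w, hw.1⟩ := by
      rw [← map_pow, ← sub_eq_zero, ← map_sub, residue_eq_zero_iff, mem_maximalIdeal_iff]
      exact hyw
    rw [h1]
    exact residue_mem_Sbar A O x b (f := ⟨w, hw.1⟩) hw
  have hmem := Fermat.Agent.S18.H45.mem_of_pow_mem_of_basis (Sbar A O x b) D.basisRes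
    (basisRes_mem_Sbar D hθ.mem) (exists_coord_Sbar D hθ.coord) hcl _ m hm hpow
  obtain ⟨s, hs, hsy⟩ := (mem_Sbar A O x b).1 hmem
  refine ⟨s, hs, ?_⟩
  have h2 : residue ↥O (⟨y, hy⟩ - s) = 0 := by rw [map_sub, hsy, sub_self]
  rw [residue_eq_zero_iff, mem_maximalIdeal_iff] at h2
  exact h2

end KeyLemma

end Fermat.Agent.S18.H5
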